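/-
Programme T1B (S44), NODAL TWIN of `T1/ModelFacts62/Hub.lean` (helper49): the facts about the HUB
rings `C_j = O ⊗[W] B_j` consumed by the REDUCTION layer (list T1-T6 of helper75), obtained by
transport along an isomorphism `e : O ⊗[W] B ≃ₐ[O] ↥B'` onto a chart `B'` of a NODAL model
`hL : ES.N34.NumData13.NodalNumData O L F' π' t' B0' B1' O1' O2'` (`e` is the base change isomorphism
`NodalBC23.Model.equiv_j` / `NodalNF.equiv_jNF`, here a hypothesis).

* (T1) `hub_isDomain`, `hub_isNoetherianRing0/1`, `hub_flat`;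
* (T3) `hub_tmul_sub_ne_zero`, `hub_tmul_sub_ne_zero0/1` : `1 ⊗ t - a ⊗ 1 ≠ 0`, and
  `hub_ptIdeal_ne_bot0/1` : `ptIdeal q ≠ ⊥` for every `O`-point `q : B →ₐ[W] O`;
* (T4) `hub_pi_regular`; (T6) `hub_pi_not_isUnit`, `hub_pi_not_isUnit0/1/01`;
* there is NO (T5): `π'` is not a prime element of a nodal hub ring (two components);
* packaged: `hub_invertible_ptIdeal0'/1'` : `NodalBC23.HubPt.hub_invertible_ptIdeal0/1` with the
  hypothesis `ptIdeal q ≠ ⊥` discharged.

The statements which do not mention the model (`hub_isDomain`, `hub_tmul_sub_ne_zero`,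
`hub_tmul_sub_ne_zero0/1`) are the ones of `T1.ModelFacts62` (same constants, made visible here).
-/
import Mathlib
import Fermat.Agent.T1.ModelFacts62.Hub
import Fermat.Agent.T1B.NodalBC23.HubPt
import Fermat.Agent.T1B.NodalCoh30.NumData

set_option autoImplicit false
set_option linter.unusedSectionVars false
set_option linter.style.haveILetI false

open TensorProduct

namespace Fermat.Agent.T1B.NodalHub49

export Fermat.Agent.T1.ModelFacts62 (hub_isDomain hub_tmul_sub_ne_zero hub_tmul_sub_ne_zero0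
  hub_tmul_sub_ne_zero1)

open Fermat.Agent.T1.PtLine75 Fermat.Agent.T1.PtInv75 Fermat.Agent.T1.PtInvLine75
open Fermat.Agent.T1.ModelFacts62 (isDomain_of_algEquiv isNoetherianRing_of_algEquiv
  not_isUnit_algebraMap_of_algEquiv regular_algebraMap_of_algEquiv)
open Fermat.Agent.ES.N34.NodalCore13 Fermat.Agent.ES.N34.NodalCL13 Fermat.Agent.ES.N34.NumData13
open Fermat.Agent.T1B.NodalFacts23

universe u

variable {W O B : Type u} [CommRing W] [CommRing O] [CommRing B] [Algebra W O] [Algebra W B]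
variable {L F' : Type u} [Field L] [Field F'] [Algebra O L] [Algebra L F'] [Algebra O F']
  [IsScalarTower O L F']
  {π' : O} {t' : F'} {B0' B1' : Subalgebra O F'} {O1' O2' : ValuationSubring F'}

/-! ### base facts -/

theorem algebraMap_injective (hL : NodalNumData O L F' π' t' B0' B1' O1' O2') :
    Function.Injective (algebraMap O F') :=
  Fermat.Agent.T1B.NodalCoh30.injective_of_numData hL

/-- the constants lie in both valuation rings. -/
theorem algebraMap_mem_O1 (hL : NodalNumData O L F' π' t' B0' B1' O1' O2') (r : O) :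
    algebraMap O F' r ∈ O1' :=
  hL.model.le_O1_0 _ (B0'.algebraMap_mem r)

theorem algebraMap_mem_O2 (hL : NodalNumData O L F' π' t' B0' B1' O1' O2') (r : O) :
    algebraMap O F' r ∈ O2' :=
  hL.model.le_O2_0 _ (B0'.algebraMap_mem r)

/-- `O1'` as a subalgebra of `F'` over `O`. -/
def o1Sub (hL : NodalNumData O L F' π' t' B0' B1' O1' O2') : Subalgebra O F' :=
  { O1'.toSubring.toSubsemiring with
    algebraMap_mem' := fun r => algebraMap_mem_O1 hL r }

/-- `O2'` as a subalgebra of `F'` over `O`. -/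
def o2Sub (hL : NodalNumData O L F' π' t' B0' B1' O1' O2') : Subalgebra O F' :=
  { O2'.toSubring.toSubsemiring with
    algebraMap_mem' := fun r => algebraMap_mem_O2 hL r }

theorem mem_o1Sub (hL : NodalNumData O L F' π' t' B0' B1' O1' O2') {x : F'} :
    x ∈ o1Sub hL ↔ x ∈ O1' := Iff.rfl

theorem mem_o2Sub (hL : NodalNumData O L F' π' t' B0' B1' O1' O2') {x : F'} :
    x ∈ o2Sub hL ↔ x ∈ O2' := Iff.rfl

/-- the overlap chart `B0' ⊔ B1'` lies in `O1'`. -/
theorem sup_le_O1 (hL : NodalNumData O L F' π' t' B0' B1' O1' O2') :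
    ∀ x ∈ B0' ⊔ B1', x ∈ O1' := by
  have hle : B0' ⊔ B1' ≤ o1Sub hL :=
    sup_le (fun y hy => hL.model.le_O1_0 y hy) (fun y hy => hL.model.le_O1_1 y hy)
  exact fun x hx => hle hx

/-- the overlap chart `B0' ⊔ B1'` lies in `O2'`. -/
theorem sup_le_O2 (hL : NodalNumData O L F' π' t' B0' B1' O1' O2') :
    ∀ x ∈ B0' ⊔ B1', x ∈ O2' := by
  have hle : B0' ⊔ B1' ≤ o2Sub hL :=
    sup_le (fun y hy => hL.model.le_O2_0 y hy) (fun y hy => hL.model.le_O2_1 y hy)
  exact fun x hx => hle hx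

/-! ### chart level: `π'` in a chart -/

theorem pi_sub_ne_zero (hL : NodalNumData O L F' π' t' B0' B1' O1' O2') (B' : Subalgebra O F') :
    algebraMap O ↥B' π' ≠ 0 := fun h =>
  hL.model.pi_ne (congrArg (fun x : ↥B' => (x : F')) h)

/-- `π'` is a nonzerodivisor of every chart. -/
theorem pi_regular_sub (hL : NodalNumData O L F' π' t' B0' B1' O1' O2') (B' : Subalgebra O F')
    (x : ↥B') (h : algebraMap O ↥B' π' * x = 0) : x = 0 :=
  (mul_eq_zero.1 h).resolve_left (pi_sub_ne_zero hL B')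

/-- `π'` is not a unit of a chart contained in `O1'`. -/
theorem pi_not_isUnit_sub (hL : NodalNumData O L F' π' t' B0' B1' O1' O2') (B' : Subalgebra O F')
    (hle : ∀ x ∈ B', x ∈ O1') : ¬ IsUnit (algebraMap O ↥B' π') := by
  rintro ⟨v, hv⟩
  apply hL.model.pi_nonunit1
  have h1 : ((v : ↥B') : F') = algebraMap O F' π' := congrArg (fun x : ↥B' => (x : F')) hv
  have h2 : algebraMap O F' π' * (((v⁻¹ : (↥B')ˣ) : ↥B') : F') = 1 := by
    rw [← h1]
    exact congrArg (fun x : ↥B' => (x : F')) (Units.mul_inv v)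
  rw [inv_eq_of_mul_eq_one_right h2]
  exact hle _ (((v⁻¹ : (↥B')ˣ) : ↥B')).2

/-- `π'` is not a unit of a chart contained in `O2'`. -/
theorem pi_not_isUnit_sub2 (hL : NodalNumData O L F' π' t' B0' B1' O1' O2') (B' : Subalgebra O F')
    (hle : ∀ x ∈ B', x ∈ O2') : ¬ IsUnit (algebraMap O ↥B' π') := by
  rintro ⟨v, hv⟩
  apply hL.model.pi_nonunit2
  have h1 : ((v : ↥B') : F') = algebraMap O F' π' := congrArg (fun x : ↥B' => (x : F')) hv
  have h2 : algebraMap O F' π' * (((v⁻¹ : (↥B')ˣ) : ↥B') : F') = 1 := by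
    rw [← h1]
    exact congrArg (fun x : ↥B' => (x : F')) (Units.mul_inv v)
  rw [inv_eq_of_mul_eq_one_right h2]
  exact hle _ (((v⁻¹ : (↥B')ˣ) : ↥B')).2

/-- every subalgebra of `F'` is flat over the DVR `O`. -/
theorem flat_subalgebra (hL : NodalNumData O L F' π' t' B0' B1' O1' O2') (B' : Subalgebra O F') :
    Module.Flat O ↥B' :=
  (Fermat.Agent.T1B.NodalCoh30.cohDatum_of_numData hL).flat_subalgebra B'

/-! ### (T1) noetherian, flat -/

theorem hub_isNoetherianRing0 (hL : NodalNumData O L F' π' t' B0' B1' O1' O2')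
    (e : (O ⊗[W] B) ≃ₐ[O] ↥B0') : IsNoetherianRing (O ⊗[W] B) :=
  haveI := hL.noeth0
  isNoetherianRing_of_algEquiv e

theorem hub_isNoetherianRing1 (hL : NodalNumData O L F' π' t' B0' B1' O1' O2')
    (e : (O ⊗[W] B) ≃ₐ[O] ↥B1') : IsNoetherianRing (O ⊗[W] B) :=
  haveI := hL.noeth1
  isNoetherianRing_of_algEquiv e

/-- a hub ring isomorphic to a subalgebra of `F'` is flat over `O`. -/
theorem hub_flat (hL : NodalNumData O L F' π' t' B0' B1' O1' O2') (B' : Subalgebra O F')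
    (e : (O ⊗[W] B) ≃ₐ[O] ↥B') : Module.Flat O (O ⊗[W] B) :=
  haveI := flat_subalgebra hL B'
  Module.Flat.of_linearEquiv e.toLinearEquiv

/-! ### (T3) the ideal of a point is nonzero -/

/-- (T3), chart `0`: the ideal of every `O`-point is nonzero. -/
theorem hub_ptIdeal_ne_bot0 (e : (O ⊗[W] B) ≃ₐ[O] ↥B0') (tB : B)
    (he : ((e ((1 : O) ⊗ₜ[W] tB) : ↥B0') : F') = t') (ht' : ∀ a : L, algebraMap L F' a ≠ t')
    (q : B →ₐ[W] O) : ptIdeal q ≠ ⊥ :=
  ptIdeal_ne_bot q tB (hub_tmul_sub_ne_zero0 e tB he ht' (q tB))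

/-- (T3), chart `1`: the ideal of every `O`-point is nonzero. -/
theorem hub_ptIdeal_ne_bot1 (e : (O ⊗[W] B) ≃ₐ[O] ↥B1') (sB : B)
    (he : ((e ((1 : O) ⊗ₜ[W] sB) : ↥B1') : F') = t'⁻¹) (ht' : ∀ a : L, algebraMap L F' a ≠ t')
    (q : B →ₐ[W] O) : ptIdeal q ≠ ⊥ :=
  ptIdeal_ne_bot q sB (hub_tmul_sub_ne_zero1 e sB he ht' (q sB))

/-! ### (T4), (T6) the uniformiser in the hub rings -/

/-- (T4) `π'` is a nonzerodivisor of a hub ring. -/
theorem hub_pi_regular (hL : NodalNumData O L F' π' t' B0' B1' O1' O2') (B' : Subalgebra O F')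
    (e : (O ⊗[W] B) ≃ₐ[O] ↥B') :
    ∀ x : O ⊗[W] B, algebraMap O (O ⊗[W] B) π' * x = 0 → x = 0 :=
  regular_algebraMap_of_algEquiv e (pi_regular_sub hL B')

/-- (T6) `π'` is not a unit of a hub ring whose chart lies in `O1'` (`C_0`, `C_1`, `C_01`). -/
theorem hub_pi_not_isUnit (hL : NodalNumData O L F' π' t' B0' B1' O1' O2') (B' : Subalgebra O F')
    (hle : ∀ x ∈ B', x ∈ O1') (e : (O ⊗[W] B) ≃ₐ[O] ↥B') :
    ¬ IsUnit (algebraMap O (O ⊗[W] B) π') :=
  not_isUnit_algebraMap_of_algEquiv e (pi_not_isUnit_sub hL B' hle)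

theorem hub_pi_not_isUnit0 (hL : NodalNumData O L F' π' t' B0' B1' O1' O2')
    (e : (O ⊗[W] B) ≃ₐ[O] ↥B0') : ¬ IsUnit (algebraMap O (O ⊗[W] B) π') :=
  hub_pi_not_isUnit hL B0' hL.model.le_O1_0 e

theorem hub_pi_not_isUnit1 (hL : NodalNumData O L F' π' t' B0' B1' O1' O2')
    (e : (O ⊗[W] B) ≃ₐ[O] ↥B1') : ¬ IsUnit (algebraMap O (O ⊗[W] B) π') :=
  hub_pi_not_isUnit hL B1' hL.model.le_O1_1 e

/-- (T6) `π'` is not a unit of `C_01` (for `B01' = B0' ⊔ B1'`). -/
theorem hub_pi_not_isUnit01 (hL : NodalNumData O L F' π' t' B0' B1' O1' O2')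
    (e : (O ⊗[W] B) ≃ₐ[O] ↥(B0' ⊔ B1')) : ¬ IsUnit (algebraMap O (O ⊗[W] B) π') :=
  hub_pi_not_isUnit hL (B0' ⊔ B1') (sup_le_O1 hL) e

/-! ### Packaged: the ideal of every `O`-point off a component is invertible -/

/-- **Smooth points of the nodal hub, chart `0`** (`NodalBC23.HubPt.hub_invertible_ptIdeal0` with
`ptIdeal q ≠ ⊥` discharged). -/
theorem hub_invertible_ptIdeal0' (hL : NodalNumData O L F' π' t' B0' B1' O1' O2')
    (e : (O ⊗[W] B) ≃ₐ[O] ↥B0') (tB : B)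
    (he : ((e ((1 : O) ⊗ₜ[W] tB) : ↥B0') : F') = t') (ht' : ∀ a : L, algebraMap L F' a ≠ t')
    (q : B →ₐ[W] O) (i : Fin 2)
    (hoff : ∃ x : O ⊗[W] B, IsUnit (ptEval q x) ∧
      ∃ c ∈ comp O1' O2' i, ((e x : ↥B0') : F') = algebraMap O F' π' * c) :
    Module.Invertible (O ⊗[W] B) (ptIdeal q) :=
  Fermat.Agent.T1B.NodalBC23.HubPt.hub_invertible_ptIdeal0 hL e q
    (hub_ptIdeal_ne_bot0 e tB he ht' q) i hoff

/-- **Smooth points of the nodal hub, chart `1`.** -/
theorem hub_invertible_ptIdeal1' (hL : NodalNumData O L F' π' t' B0' B1' O1' O2')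
    (e : (O ⊗[W] B) ≃ₐ[O] ↥B1') (sB : B)
    (he : ((e ((1 : O) ⊗ₜ[W] sB) : ↥B1') : F') = t'⁻¹) (ht' : ∀ a : L, algebraMap L F' a ≠ t')
    (q : B →ₐ[W] O) (i : Fin 2)
    (hoff : ∃ x : O ⊗[W] B, IsUnit (ptEval q x) ∧
      ∃ c ∈ comp O1' O2' i, ((e x : ↥B1') : F') = algebraMap O F' π' * c) :
    Module.Invertible (O ⊗[W] B) (ptIdeal q) :=
  Fermat.Agent.T1B.NodalBC23.HubPt.hub_invertible_ptIdeal1 hL e q
    (hub_ptIdeal_ne_bot1 e sB he ht' q) i hoff

end Fermat.Agent.T1B.NodalHub49
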