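/-
Programme T1B (S44), NODAL HUB FACTS (helper49), file 2: the facts of `NodalHub49/Facts.lean` for the
CONCRETE nodal hub of helper23 (`NodalBC23/NodalNFEquiv.lean`):
`↥(AK A L) ⊗[↥(AK A K)] B_j^K ≃ₐ B_j^L` (`equiv0NF`, `equiv1NF`, `equiv01NF`), `K ≤ L` number fields.

* `algebraMap_ne_tN` : the Hauptmodul `tN q htL` is not a constant of `L` (the hypothesis `ht'` of
  `Facts.lean`; coefficient of `𝐪⁻¹`);
* `coe_equiv0NF_t`, `coe_equiv1NF_tinv` : the images of `1 ⊗ t`, `1 ⊗ t⁻¹`;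
* `ptIdeal_ne_bot0NF/1NF`, `invertible_ptIdeal0NF/1NF` (hypothesis in the `P0 i`/`P1 i` vocabulary of
  `nodalGood_numField`), `isNoetherianRing0NF/1NF`, `flat0NF/1NF/01NF`, `pi_regular0NF/1NF/01NF`,
  `pi_not_isUnit0NF/1NF/01NF`.
-/
import Mathlib
import Fermat.Agent.T1B.NodalBC23.NodalNFEquiv
import Fermat.Agent.T1B.NodalHub49.Facts

set_option autoImplicit false
set_option linter.unusedSectionVars false
set_option linter.style.haveILetI false

noncomputable section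

namespace Fermat.Agent.T1B.NodalHub49.Concrete

open TensorProduct HahnSeries ModularCurve IntermediateField
open Fermat.Agent.RED.Interface4 Fermat.Agent.RED.PUR.GaussGen8
open Fermat.Agent.RED.BASE.EtaQuot12
open Fermat.Agent.ES.N34.ModelDefs9 Fermat.Agent.ES.N34.NumData13 Fermat.Agent.ES.N34.NodalCore13
open Fermat.Agent.T1.ModelBC51.Abstract
open Fermat.Agent.T1.HubInst98
open Fermat.Agent.T1.PtLine75
open Fermat.Agent.T1B.RedN3 Fermat.Agent.T1B.NodalFacts23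
open Fermat.Agent.T1B.NodalBC23.Abstract Fermat.Agent.T1B.NodalBC23.NumField
open Fermat.Agent.T1B.NodalBC23.Model Fermat.Agent.T1B.NodalBC23.Good
open Fermat.Agent.T1B.NodalBC23.NodalNF Fermat.Agent.T1B.NodalBC23.NodalNFEquiv
open Fermat.Agent.Jac Fermat.Agent.Jac.BaseChange75
open scoped Fermat.Agent.Jac.BaseChange75
open Fermat.Agent.T1.Coh60 (algebra0 algebra1 isScalarTower0 isScalarTower1)

/-! ### Local shortcut instances (instance search at `↥(AK A K)`, `↥(FK N K)` is slow) -/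

set_option synthInstance.maxHeartbeats 400000
set_option maxHeartbeats 1000000

local instance (priority := high) scAlgKF (K : IntermediateField ℚ Qbar) (N : ℕ) [NeZero N] :
    Algebra ↥K ↥(FK N K) := inferInstance

local instance (priority := high) scAlgAK (A : ValuationSubring Qbar)
    (K : IntermediateField ℚ Qbar) : Algebra ↥(AK A K) ↥K := inferInstance

local instance (priority := high) scAlgAF (A : ValuationSubring Qbar)
    (K : IntermediateField ℚ Qbar) (N : ℕ) [NeZero N] : Algebra ↥(AK A K) ↥(FK N K) :=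
  inferInstance

local instance (priority := high) scTower (A : ValuationSubring Qbar)
    (K : IntermediateField ℚ Qbar) (N : ℕ) [NeZero N] :
    IsScalarTower ↥(AK A K) ↥K ↥(FK N K) := inferInstance

variable (A : ValuationSubring Qbar) {K L : IntermediateField ℚ Qbar} (h : K ≤ L)
  (M' q : ℕ) [NeZero M'] [NeZero q] {n e : ℕ} [NeZero n]
  {ℓ : ℕ} (hℓ : ℓ ≠ 0) (hA : A.LiesOverPrime ℓ) [FiniteDimensional ℚ L]
  {π : ↥(AK A K)} {π' : ↥(AK A L)} (hπ : IsUnif (AK A K) π) (hπ' : IsUnif (AK A L) π')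
  (hE : FK (M' * q) K ≤ fracField (AK A K)) (hE' : FK (M' * q) L ≤ fracField (AK A L))
  (htK : tq ↥K n e ∈ FK M' K) (htL : tq ↥L n e ∈ FK M' L)

/-! ### The Hauptmodul is not a constant -/

/-- **The Hauptmodul at the bad level is not a constant**: its coefficient of `𝐪⁻¹` is `1`. -/
theorem algebraMap_ne_tN (a : ↥L) : algebraMap ↥L ↥(FK (M' * q) L) a ≠ tN q htL := by
  intro hEq
  have h1 : ((algebraMap ↥L ↥(FK (M' * q) L) a : ↥(FK (M' * q) L)) : LaurentSeries ↥L) =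
      tq ↥L n e := by
    rw [hEq, coe_tN]
  have h2 := congrArg (fun x : LaurentSeries ↥L => x.coeff (-1)) h1
  simp only [coeff_tq_neg_one] at h2
  have h3 : ((algebraMap ↥L ↥(FK (M' * q) L) a : ↥(FK (M' * q) L)) : LaurentSeries ↥L) =
      algebraMap ↥L (LaurentSeries ↥L) a := rfl
  have h4 : algebraMap ↥L (LaurentSeries ↥L) a = HahnSeries.C a :=
    LaurentSeries.algebraMap_apply ↥L a
  rw [h3, h4, HahnSeries.C_apply, HahnSeries.coeff_single_of_ne (by norm_num)] at h2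
  exact zero_ne_one h2

/-! ### The concrete hub charts -/

variable
  (hK : NodalNumData ↥(AK A K) ↥K ↥(FK (M' * q) K) π (tN q htK) (B0 A q htK) (B1 A q htK)
    (O1 M' q hπ hE) (O2 M' q hπ hE))
  (hL : NodalNumData ↥(AK A L) ↥L ↥(FK (M' * q) L) π' (tN q htL) (B0 A q htL) (B1 A q htL)
    (O1 M' q hπ' hE') (O2 M' q hπ' hE'))

/-- the coordinate `t` of the chart `0` over `K`. -/
def t0K : ↥(B0 A q htK) := ⟨tN q htK, hK.model.t_mem⟩

/-- the coordinate `t⁻¹` of the chart `1` over `K`. -/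
def t1K : ↥(B1 A q htK) := ⟨(tN q htK)⁻¹, hK.model.tinv_mem⟩

theorem coe_equiv0NF_t :
    letI := algAK A h
    ((equiv0NF A h M' q hℓ hA hπ hπ' hE hE' htK htL hK hL
        ((1 : ↥(AK A L)) ⊗ₜ t0K A M' q hπ hE htK hK) : ↥(B0 A q htL)) : ↥(FK (M' * q) L)) =
      tN q htL := by
  letI := algAK A h
  rw [coe_equiv0NF_tmul, map_one, one_mul]
  exact cF_tN h M' q htK htL

theorem coe_equiv1NF_tinv :
    letI := algAK A h
    ((equiv1NF A h M' q hℓ hA hπ hπ' hE hE' htK htL hK hL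
        ((1 : ↥(AK A L)) ⊗ₜ t1K A M' q hπ hE htK hK) : ↥(B1 A q htL)) : ↥(FK (M' * q) L)) =
      (tN q htL)⁻¹ := by
  letI := algAK A h
  rw [coe_equiv1NF_tmul, map_one, one_mul]
  show cF h (M' * q) (tN q htK)⁻¹ = _
  rw [map_inv₀, cF_tN h M' q htK htL]

/-! ### (T3) the ideal of a point is nonzero -/

include hℓ hA hπ hπ' hE hE' htK htL hK hL

theorem ptIdeal_ne_bot0NF :
    letI := algAK A h
    ∀ qq : ↥(B0 A q htK) →ₐ[↥(AK A K)] ↥(AK A L), ptIdeal qq ≠ ⊥ := by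
  letI := algAK A h
  intro qq
  exact hub_ptIdeal_ne_bot0 (L := ↥L)
    (equiv0NF A h M' q hℓ hA hπ hπ' hE hE' htK htL hK hL) (t0K A M' q hπ hE htK hK)
    (coe_equiv0NF_t A h M' q hℓ hA hπ hπ' hE hE' htK htL hK hL)
    (algebraMap_ne_tN M' q htL) qq

theorem ptIdeal_ne_bot1NF :
    letI := algAK A h
    ∀ qq : ↥(B1 A q htK) →ₐ[↥(AK A K)] ↥(AK A L), ptIdeal qq ≠ ⊥ := by
  letI := algAK A h
  intro qq
  exact hub_ptIdeal_ne_bot1 (L := ↥L)
    (equiv1NF A h M' q hℓ hA hπ hπ' hE hE' htK htL hK hL) (t1K A M' q hπ hE htK hK)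
    (coe_equiv1NF_tinv A h M' q hℓ hA hπ hπ' hE hE' htK htL hK hL)
    (algebraMap_ne_tN M' q htL) qq

/-! ### Packaged: smooth points -/

/-- **Smooth points of the concrete nodal hub, chart `0`**: an `O_L`-point whose reduction is off
the component `i` has an invertible ideal. -/
theorem invertible_ptIdeal0NF (i : Fin 2) :
    letI := algAK A h
    ∀ qq : ↥(B0 A q htK) →ₐ[↥(AK A K)] ↥(AK A L),
      (∃ x : ↥(AK A L) ⊗[↥(AK A K)] ↥(B0 A q htK), IsUnit (ptEval qq x) ∧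
        ∃ c ∈ comp (O1 M' q hπ' hE') (O2 M' q hπ' hE') i,
          ((equiv0NF A h M' q hℓ hA hπ hπ' hE hE' htK htL hK hL x : ↥(B0 A q htL)) :
            ↥(FK (M' * q) L)) = algebraMap ↥(AK A L) ↥(FK (M' * q) L) π' * c) →
      Module.Invertible (↥(AK A L) ⊗[↥(AK A K)] ↥(B0 A q htK)) (ptIdeal qq) := by
  letI := algAK A h
  intro qq hoff
  exact hub_invertible_ptIdeal0' (L := ↥L) hL
    (equiv0NF A h M' q hℓ hA hπ hπ' hE hE' htK htL hK hL) (t0K A M' q hπ hE htK hK)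
    (coe_equiv0NF_t A h M' q hℓ hA hπ hπ' hE hE' htK htL hK hL)
    (algebraMap_ne_tN M' q htL) qq i hoff

/-- **Smooth points of the concrete nodal hub, chart `1`.** -/
theorem invertible_ptIdeal1NF (i : Fin 2) :
    letI := algAK A h
    ∀ qq : ↥(B1 A q htK) →ₐ[↥(AK A K)] ↥(AK A L),
      (∃ x : ↥(AK A L) ⊗[↥(AK A K)] ↥(B1 A q htK), IsUnit (ptEval qq x) ∧
        ∃ c ∈ comp (O1 M' q hπ' hE') (O2 M' q hπ' hE') i,
          ((equiv1NF A h M' q hℓ hA hπ hπ' hE hE' htK htL hK hL x : ↥(B1 A q htL)) :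
            ↥(FK (M' * q) L)) = algebraMap ↥(AK A L) ↥(FK (M' * q) L) π' * c) →
      Module.Invertible (↥(AK A L) ⊗[↥(AK A K)] ↥(B1 A q htK)) (ptIdeal qq) := by
  letI := algAK A h
  intro qq hoff
  exact hub_invertible_ptIdeal1' (L := ↥L) hL
    (equiv1NF A h M' q hℓ hA hπ hπ' hE hE' htK htL hK hL) (t1K A M' q hπ hE htK hK)
    (coe_equiv1NF_tinv A h M' q hℓ hA hπ hπ' hE hE' htK htL hK hL)
    (algebraMap_ne_tN M' q htL) qq i hoff

/-! ### (T1), (T4), (T6) for the three concrete hub rings -/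

theorem isDomain0NF :
    letI := algAK A h
    IsDomain (↥(AK A L) ⊗[↥(AK A K)] ↥(B0 A q htK)) :=
  letI := algAK A h
  hub_isDomain _ (equiv0NF A h M' q hℓ hA hπ hπ' hE hE' htK htL hK hL)

theorem isDomain1NF :
    letI := algAK A h
    IsDomain (↥(AK A L) ⊗[↥(AK A K)] ↥(B1 A q htK)) :=
  letI := algAK A h
  hub_isDomain _ (equiv1NF A h M' q hℓ hA hπ hπ' hE hE' htK htL hK hL)

theorem isDomain01NF :
    letI := algAK A h
    IsDomain (↥(AK A L) ⊗[↥(AK A K)] ↥(B0 A q htK ⊔ B1 A q htK)) :=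
  letI := algAK A h
  hub_isDomain _ (equiv01NF A h M' q hℓ hA hπ hπ' hE hE' htK htL hK hL)

theorem isNoetherianRing0NF :
    letI := algAK A h
    IsNoetherianRing (↥(AK A L) ⊗[↥(AK A K)] ↥(B0 A q htK)) :=
  letI := algAK A h
  hub_isNoetherianRing0 (L := ↥L) hL (equiv0NF A h M' q hℓ hA hπ hπ' hE hE' htK htL hK hL)

theorem isNoetherianRing1NF :
    letI := algAK A h
    IsNoetherianRing (↥(AK A L) ⊗[↥(AK A K)] ↥(B1 A q htK)) :=
  letI := algAK A h
  hub_isNoetherianRing1 (L := ↥L) hL (equiv1NF A h M' q hℓ hA hπ hπ' hE hE' htK htL hK hL)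

theorem flat0NF :
    letI := algAK A h
    Module.Flat ↥(AK A L) (↥(AK A L) ⊗[↥(AK A K)] ↥(B0 A q htK)) :=
  letI := algAK A h
  hub_flat (L := ↥L) hL _ (equiv0NF A h M' q hℓ hA hπ hπ' hE hE' htK htL hK hL)

theorem flat1NF :
    letI := algAK A h
    Module.Flat ↥(AK A L) (↥(AK A L) ⊗[↥(AK A K)] ↥(B1 A q htK)) :=
  letI := algAK A h
  hub_flat (L := ↥L) hL _ (equiv1NF A h M' q hℓ hA hπ hπ' hE hE' htK htL hK hL)

theorem flat01NF :
    letI := algAK A h
    Module.Flat ↥(AK A L) (↥(AK A L) ⊗[↥(AK A K)] ↥(B0 A q htK ⊔ B1 A q htK)) :=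
  letI := algAK A h
  hub_flat (L := ↥L) hL _ (equiv01NF A h M' q hℓ hA hπ hπ' hE hE' htK htL hK hL)

theorem pi_regular0NF :
    letI := algAK A h
    ∀ x : ↥(AK A L) ⊗[↥(AK A K)] ↥(B0 A q htK),
      algebraMap ↥(AK A L) (↥(AK A L) ⊗[↥(AK A K)] ↥(B0 A q htK)) π' * x = 0 → x = 0 :=
  letI := algAK A h
  hub_pi_regular (L := ↥L) hL _ (equiv0NF A h M' q hℓ hA hπ hπ' hE hE' htK htL hK hL)

theorem pi_regular1NF :
    letI := algAK A h
    ∀ x : ↥(AK A L) ⊗[↥(AK A K)] ↥(B1 A q htK),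
      algebraMap ↥(AK A L) (↥(AK A L) ⊗[↥(AK A K)] ↥(B1 A q htK)) π' * x = 0 → x = 0 :=
  letI := algAK A h
  hub_pi_regular (L := ↥L) hL _ (equiv1NF A h M' q hℓ hA hπ hπ' hE hE' htK htL hK hL)

theorem pi_regular01NF :
    letI := algAK A h
    ∀ x : ↥(AK A L) ⊗[↥(AK A K)] ↥(B0 A q htK ⊔ B1 A q htK),
      algebraMap ↥(AK A L) (↥(AK A L) ⊗[↥(AK A K)] ↥(B0 A q htK ⊔ B1 A q htK)) π' * x = 0 →
        x = 0 :=
  letI := algAK A h
  hub_pi_regular (L := ↥L) hL _ (equiv01NF A h M' q hℓ hA hπ hπ' hE hE' htK htL hK hL)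

theorem pi_not_isUnit0NF :
    letI := algAK A h
    ¬ IsUnit (algebraMap ↥(AK A L) (↥(AK A L) ⊗[↥(AK A K)] ↥(B0 A q htK)) π') :=
  letI := algAK A h
  hub_pi_not_isUnit0 (L := ↥L) hL (equiv0NF A h M' q hℓ hA hπ hπ' hE hE' htK htL hK hL)

theorem pi_not_isUnit1NF :
    letI := algAK A h
    ¬ IsUnit (algebraMap ↥(AK A L) (↥(AK A L) ⊗[↥(AK A K)] ↥(B1 A q htK)) π') :=
  letI := algAK A h
  hub_pi_not_isUnit1 (L := ↥L) hL (equiv1NF A h M' q hℓ hA hπ hπ' hE hE' htK htL hK hL)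

theorem pi_not_isUnit01NF :
    letI := algAK A h
    ¬ IsUnit (algebraMap ↥(AK A L) (↥(AK A L) ⊗[↥(AK A K)] ↥(B0 A q htK ⊔ B1 A q htK)) π') :=
  letI := algAK A h
  hub_pi_not_isUnit01 (L := ↥L) hL (equiv01NF A h M' q hℓ hA hπ hπ' hE hE' htK htL hK hL)

/-! ### Smooth points, in the vocabulary of `nodalGood_numField` -/

attribute [local instance] algebra0 algebra1 isScalarTower0 isScalarTower1

/-- chart `0`: an `O_L`-point at which some element of the prime `P0 i` of the hub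
(`nodalGood_numField`) is a unit has an invertible ideal. -/
theorem invertible_ptIdeal0NF_of_P0 (i : Fin 2) :
    letI := algAK A h
    ∀ qq : ↥(B0 A q htK) →ₐ[↥(AK A K)] ↥(AK A L),
      (∃ x : ↥(AK A L) ⊗[↥(AK A K)] ↥(B0 A q htK),
        x ∈ (nodalGood_numField A h M' q hℓ hA hπ hπ' hE hE' htK htL hK hL).P0 i ∧
          IsUnit (ptEval qq x)) →
      Module.Invertible (↥(AK A L) ⊗[↥(AK A K)] ↥(B0 A q htK)) (ptIdeal qq) := by
  letI := algAK A h
  rintro qq ⟨x, hx, hu⟩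
  exact invertible_ptIdeal0NF A h M' q hℓ hA hπ hπ' hE hE' htK htL hK hL i qq
    ⟨x, hu, (mem_P0_numField A h M' q hℓ hA hπ hπ' hE hE' htK htL hK hL i x).1 hx⟩

/-- chart `1`: an `O_L`-point at which some element of the prime `P1 i` of the hub is a unit has an
invertible ideal. -/
theorem invertible_ptIdeal1NF_of_P1 (i : Fin 2) :
    letI := algAK A h
    ∀ qq : ↥(B1 A q htK) →ₐ[↥(AK A K)] ↥(AK A L),
      (∃ x : ↥(AK A L) ⊗[↥(AK A K)] ↥(B1 A q htK),
        x ∈ (nodalGood_numField A h M' q hℓ hA hπ hπ' hE hE' htK htL hK hL).P1 i ∧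
          IsUnit (ptEval qq x)) →
      Module.Invertible (↥(AK A L) ⊗[↥(AK A K)] ↥(B1 A q htK)) (ptIdeal qq) := by
  letI := algAK A h
  rintro qq ⟨x, hx, hu⟩
  exact invertible_ptIdeal1NF A h M' q hℓ hA hπ hπ' hE hE' htK htL hK hL i qq
    ⟨x, hu, (mem_P1_numField A h M' q hℓ hA hπ hπ' hE hE' htK htL hK hL i x).1 hx⟩

end Fermat.Agent.T1B.NodalHub49.Concrete
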